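import Fermat.Agent.Lib.GalRep.Quadratic
import Fermat.Prelude.Def_GaloisRep_Residual
import Fermat.Prelude.Def_FLTPrelim_Ramification

/-!
# From Eichler–Shimura relations to a residual Galois representation

Abstract assembly: a nonzero finite dimensional `k₀[G_ℚ]`-module (`k₀` algebraically closed) on
which the Frobenius elements outside a finite set `S` satisfy `σ² - a_ℓ σ + ℓ = 0`, together with
the Frobenius density theorem in its existence form (`FrobeniusGenerates`), gives a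
`ResidualGaloisRep` with characteristic polynomials `X² - a_ℓ X + ℓ`, unramified outside `S`.
-/

set_option autoImplicit false
set_option linter.unusedSectionVars false
set_option linter.style.haveILetI false

namespace Fermat.Agent.Lib.GalRep

open Polynomial

local notation "Γℚ" => (AlgebraicClosure ℚ ≃ₐ[ℚ] AlgebraicClosure ℚ)

/-! ### powers of an element satisfying a quadratic relation -/

section Lucas

variable {R A : Type*} [CommRing R] [Ring A] [Algebra R A]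

/-- if `x² - t x + d = 0` then `x ^ m` satisfies `y² - s y + d ^ m = 0` for some `s` -/
theorem exists_quadratic_pow {x : A} {t d : R}
    (h : x * x - t • x + d • (1 : A) = 0) (m : ℕ) :
    ∃ s : R, x ^ m * x ^ m - s • x ^ m + (d ^ m) • (1 : A) = 0 := by
  set y : A := t • (1 : A) - x with hy
  have hxy : x * y = d • (1 : A) := by
    rw [hy, mul_sub, mul_smul_comm, mul_one]
    have h' : x * x = t • x - d • (1 : A) := by
      rw [← sub_eq_zero, ← h]
      abel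
    rw [h']
    abel
  have hcomm : Commute x y := by
    rw [hy]
    exact ((Commute.one_right x).smul_right t).sub_right (Commute.refl x)
  have hsum : ∀ n : ℕ, ∃ s : R, x ^ n + y ^ n = s • (1 : A) := by
    intro n
    induction n using Nat.strong_induction_on with
    | _ n ih =>
      match n, ih with
      | 0, _ => exact ⟨2, by rw [pow_zero, pow_zero, two_smul]⟩
      | 1, _ => exact ⟨t, by rw [pow_one, pow_one, hy]; abel⟩
      | n + 2, ih =>
        obtain ⟨s₁, hs₁⟩ := ih (n + 1) (by omega)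
        obtain ⟨s₀, hs₀⟩ := ih n (by omega)
        refine ⟨t * s₁ - d * s₀, ?_⟩
        have h1 : x ^ (n + 2) + y ^ (n + 2)
            = (x + y) * (x ^ (n + 1) + y ^ (n + 1)) - (x * y) * (x ^ n + y ^ n) := by
          have e1 : x * y ^ (n + 1) = (x * y) * y ^ n := by rw [pow_succ', mul_assoc]
          have e2 : y * x ^ (n + 1) = (x * y) * x ^ n := by
            rw [pow_succ', ← mul_assoc, hcomm.eq]
          rw [add_mul, mul_add, mul_add, e1, e2, mul_add, ← pow_succ', ← pow_succ']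
          abel
        have h2 : x + y = t • (1 : A) := by rw [hy]; abel
        rw [h1, h2, hs₁, hs₀, hxy, smul_mul_assoc, one_mul, smul_mul_assoc, one_mul, smul_smul,
          smul_smul, sub_smul]
  obtain ⟨s, hs⟩ := hsum m
  refine ⟨s, ?_⟩
  have h3 : x ^ m * y ^ m = (d ^ m) • (1 : A) := by
    rw [← hcomm.mul_pow, hxy, _root_.smul_pow, one_pow]
  have h4 : s • x ^ m = x ^ m * (x ^ m + y ^ m) := by
    rw [hs, mul_smul_comm, mul_one]
  rw [h4, mul_add, h3]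
  abel

end Lucas

/-! ### the Frobenius density theorem, existence form -/

/-- **Frobenius density theorem (existence form)**: on every finite extension `L` of `ℚ`, every
element of the Galois group agrees with a power of a Frobenius element at a prime outside any
given finite set. -/
def FrobeniusGenerates : Prop :=
  ∀ (L : IntermediateField ℚ (AlgebraicClosure ℚ)), FiniteDimensional ℚ L →
    ∀ (S : Finset ℕ) (σ : Γℚ),
      ∃ (ℓ : ℕ) (A : ValuationSubring (AlgebraicClosure ℚ)) (σ' : Γℚ) (m : ℕ),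
        ℓ.Prime ∧ ℓ ∉ S ∧ A.LiesOverPrime ℓ ∧ A.IsFrobeniusAt σ' ℓ ∧
          ∀ x ∈ L, σ x = (σ' ^ m) x

/-- a homomorphism factoring through a finite level takes the same value on two elements which
agree on the level -/
theorem eq_of_agree {M : Type} [Monoid M] (ρ : Γℚ →* M)
    {L : IntermediateField ℚ (AlgebraicClosure ℚ)}
    (hL : ∀ σ : Γℚ, (∀ x ∈ L, σ x = x) → ρ σ = 1) {σ τ : Γℚ}
    (h : ∀ x ∈ L, σ x = τ x) : ρ σ = ρ τ := by
  have h1 : ρ (τ⁻¹ * σ) = 1 := by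
    apply hL
    intro x hx
    show τ⁻¹ (σ x) = x
    rw [h x hx]
    exact τ.symm_apply_apply x
  have h2 : ρ σ = ρ τ * ρ (τ⁻¹ * σ) := by
    rw [← map_mul, mul_inv_cancel_left]
  rw [h2, h1, mul_one]

/-- **Assembly.** -/
theorem exists_residualGaloisRep (hFG : FrobeniusGenerates)
    {k : Type} [Field k] {k₀ : Type} [Field k₀] [IsAlgClosed k₀] (ι : k₀ →+* k)
    (a : ℕ → k₀)
    {V₀ : Type} [AddCommGroup V₀] [Module k₀ V₀] [FiniteDimensional k₀ V₀] [Nontrivial V₀]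
    (ρ₀ : Γℚ →* Module.End k₀ V₀) (hfin : GaloisFactorsThroughFiniteLevel ρ₀)
    (d : Γℚ →* k₀ˣ) (hdfin : GaloisFactorsThroughFiniteLevel d)
    (S : Finset ℕ)
    (hES : ∀ ℓ : ℕ, ℓ.Prime → ℓ ∉ S → ∀ A : ValuationSubring (AlgebraicClosure ℚ),
      A.LiesOverPrime ℓ → ∀ σ : Γℚ, A.IsFrobeniusAt σ ℓ →
        ρ₀ σ * ρ₀ σ - a ℓ • ρ₀ σ + (ℓ : k₀) • (1 : Module.End k₀ V₀) = 0 ∧
          ((d σ : k₀ˣ) : k₀) = (ℓ : k₀))
    (hunr : ∀ ℓ : ℕ, ℓ.Prime → ℓ ∉ S → ∀ A : ValuationSubring (AlgebraicClosure ℚ),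
      A.LiesOverPrime ℓ → ∀ σ ∈ A.inertiaSubgroupIn ℚ, ρ₀ σ = 1 ∧ d σ = 1) :
    ∃ ρ : ResidualGaloisRep k,
      (∀ ℓ : ℕ, ℓ.Prime → ℓ ∉ S → ∀ A : ValuationSubring (AlgebraicClosure ℚ),
        A.LiesOverPrime ℓ → ∀ σ : Γℚ, A.IsFrobeniusAt σ ℓ →
          LinearMap.charpoly (ρ.ρ σ) = X ^ 2 - C (ι (a ℓ)) * X + C ((ℓ : k))) ∧
      ∀ ℓ : ℕ, ℓ.Prime → ℓ ∉ S → ρ.IsUnramifiedAt ℓ := by
  classical
  obtain ⟨L₁, hL₁f, hL₁⟩ := hfin
  obtain ⟨L₂, hL₂f, hL₂⟩ := hdfin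
  haveI := hL₁f
  haveI := hL₂f
  set L : IntermediateField ℚ (AlgebraicClosure ℚ) := L₁ ⊔ L₂ with hLdef
  have hLf : FiniteDimensional ℚ L := IntermediateField.finiteDimensional_sup L₁ L₂
  have hLρ : ∀ σ : Γℚ, (∀ x ∈ L, σ x = x) → ρ₀ σ = 1 := fun σ hσ =>
    hL₁ σ fun x hx => hσ x ((le_sup_left : L₁ ≤ L) hx)
  have hLd : ∀ σ : Γℚ, (∀ x ∈ L, σ x = x) → d σ = 1 := fun σ hσ =>
    hL₂ σ fun x hx => hσ x ((le_sup_right : L₂ ≤ L) hx)
  -- the quadratic relations for all elements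
  have hq : ∀ σ : Γℚ, ∃ s : k₀, ρ₀ σ * ρ₀ σ - s • ρ₀ σ
      + ((d σ : k₀ˣ) : k₀) • (1 : Module.End k₀ V₀) = 0 := by
    intro σ
    obtain ⟨ℓ, A, σ', m, hℓ, hℓS, hA, hσ', hagree⟩ := hFG L hLf S σ
    obtain ⟨h1, h2⟩ := hES ℓ hℓ hℓS A hA σ' hσ'
    obtain ⟨s, hs⟩ := exists_quadratic_pow h1 m
    refine ⟨s, ?_⟩
    have e1 : ρ₀ σ = ρ₀ σ' ^ m := by rw [eq_of_agree ρ₀ hLρ hagree, map_pow]
    have e2 : d σ = d σ' ^ m := by rw [eq_of_agree d hLd hagree, map_pow]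
    rw [e1, e2, Units.val_pow_eq_pow_val, h2]
    exact hs
  choose t ht using hq
  have hQ : QuadRel ρ₀ d t := ht
  obtain ⟨r, hr1, hr2⟩ := exists_two_dim hQ
  -- the trace at a Frobenius element
  have htr : ∀ ℓ : ℕ, ℓ.Prime → ℓ ∉ S → ∀ A : ValuationSubring (AlgebraicClosure ℚ),
      A.LiesOverPrime ℓ → ∀ σ : Γℚ, A.IsFrobeniusAt σ ℓ → t σ = a ℓ := by
    intro ℓ hℓ hℓS A hA σ hσ
    obtain ⟨h1, h2⟩ := hES ℓ hℓ hℓS A hA σ hσ
    have h3 := ht σ
    rw [h2] at h3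
    have h4 : (t σ - a ℓ) • ρ₀ σ = 0 := by
      rw [sub_smul]
      rw [← sub_eq_zero] at h1
      have : ρ₀ σ * ρ₀ σ - a ℓ • ρ₀ σ + (ℓ : k₀) • (1 : Module.End k₀ V₀)
          - (ρ₀ σ * ρ₀ σ - t σ • ρ₀ σ + (ℓ : k₀) • (1 : Module.End k₀ V₀)) = 0 := by
        rw [h3, sub_zero]
        exact (hES ℓ hℓ hℓS A hA σ hσ).1
      rw [← this]
      abel
    have h5 : (t σ - a ℓ) • (1 : Module.End k₀ V₀) = 0 := by
      have : (t σ - a ℓ) • (ρ₀ σ * ρ₀ σ⁻¹) = 0 := by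
        rw [← smul_mul_assoc, h4, zero_mul]
      rwa [rho_mul_inv] at this
    rcases smul_eq_zero.mp h5 with h6 | h6
    · exact sub_eq_zero.mp h6
    · exact absurd h6 one_ne_zero
  -- the representation over `k`
  let ρ : Γℚ →* Module.End k (Fin 2 → k) :=
    ((Matrix.toLinAlgEquiv' : Matrix (Fin 2) (Fin 2) k ≃ₐ[k] Module.End k (Fin 2 → k)) :
      Matrix (Fin 2) (Fin 2) k →* Module.End k (Fin 2 → k)).comp
      (((ι.mapMatrix : Matrix (Fin 2) (Fin 2) k₀ →+* Matrix (Fin 2) (Fin 2) k) :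
        Matrix (Fin 2) (Fin 2) k₀ →* Matrix (Fin 2) (Fin 2) k).comp r)
  have hρ : ∀ σ, ρ σ = Matrix.toLin' ((r σ).map ι) := fun σ => rfl
  have hρ1 : ∀ σ, r σ = 1 → ρ σ = 1 := by
    intro σ h
    rw [hρ, h]
    simp only [Matrix.map_one, map_zero, map_one]
    exact Matrix.toLin'_one
  refine ⟨{ V := Fin 2 → k
            finrank_eq := by simp
            ρ := ρ
            factorsThroughFiniteLevel := ⟨L, hLf, fun σ hσ =>
              hρ1 σ (hr2 σ (hLρ σ hσ) (hLd σ hσ))⟩ }, ?_, ?_⟩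
  · intro ℓ hℓ hℓS A hA σ hσ
    show LinearMap.charpoly (ρ σ) = _
    rw [hρ, Matrix.charpoly_toLin', Matrix.charpoly_map, hr1 σ,
      htr ℓ hℓ hℓS A hA σ hσ, (hES ℓ hℓ hℓS A hA σ hσ).2]
    simp
  · intro ℓ hℓ hℓS A hA σ hσ
    obtain ⟨h1, h2⟩ := hunr ℓ hℓ hℓS A hA σ hσ
    exact hρ1 σ (hr2 σ h1 h2)

end Fermat.Agent.Lib.GalRep
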