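import Mathlib

/-!
# Representations all of whose elements satisfy a quadratic relation

`G` a group acting on a nonzero finite dimensional vector space `V` over an algebraically closed
field `k`, `d : G →* kˣ` a character and `t : G → k` a function such that every `g` satisfies
`g ^ 2 - t g • g + d g = 0` on `V` (Eichler–Shimura relations).  Then there is a two dimensional
representation `r` of `G` with characteristic polynomials `X ^ 2 - t g X + d g`.

No Weil pairing and no multiplicity one statement is needed: a minimal invariant subspace has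
dimension at most two.
-/

set_option autoImplicit false
set_option linter.unusedSectionVars false
set_option linter.style.haveILetI false

namespace Fermat.Agent.Lib.GalRep

open Polynomial

variable {G k V : Type*} [Group G] [Field k] [AddCommGroup V] [Module k V]

/-- the quadratic (Eichler–Shimura) relations -/
def QuadRel (ρ : G →* Module.End k V) (d : G →* kˣ) (t : G → k) : Prop :=
  ∀ g, ρ g * ρ g - t g • ρ g + ((d g : kˣ) : k) • (1 : Module.End k V) = 0

variable {ρ : G →* Module.End k V} {d : G →* kˣ} {t : G → k}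

theorem rho_mul_inv (g : G) : ρ g * ρ g⁻¹ = 1 := by
  rw [← map_mul, mul_inv_cancel, map_one]

theorem rho_inv_mul (g : G) : ρ g⁻¹ * ρ g = 1 := by
  rw [← map_mul, inv_mul_cancel, map_one]

/-- `d g • g⁻¹ = t g - g` -/
theorem QuadRel.inv (h : QuadRel ρ d t) (g : G) :
    ((d g : kˣ) : k) • ρ g⁻¹ = t g • (1 : Module.End k V) - ρ g := by
  have h1 := congrArg (fun x => x * ρ g⁻¹) (h g)
  simp only [add_mul, sub_mul, mul_assoc, rho_mul_inv, mul_one, smul_mul_assoc, one_mul,
    zero_mul] at h1
  rw [← sub_eq_zero]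
  rw [← h1]
  abel

/-- the anticommutator relation -/
theorem QuadRel.anticomm (h : QuadRel ρ d t) (g g' : G) :
    ρ g * ρ g' + ρ g' * ρ g
      = t g' • ρ g + t g • ρ g' + (t (g * g') - t g * t g') • (1 : Module.End k V) := by
  have h1 := h.inv (g * g')
  rw [mul_inv_rev, map_mul, map_mul, map_mul, Units.val_mul, mul_smul] at h1
  have h2 : ((d g : kˣ) : k) • ((d g' : kˣ) : k) • (ρ g'⁻¹ * ρ g⁻¹)
      = (((d g' : kˣ) : k) • ρ g'⁻¹) * (((d g : kˣ) : k) • ρ g⁻¹) := by
    rw [smul_mul_assoc, mul_smul_comm, smul_comm]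
  rw [h2, h.inv g, h.inv g'] at h1
  have h3 : ρ g * ρ g' + ρ g' * ρ g - (t g' • ρ g + t g • ρ g'
      + (t (g * g') - t g * t g') • (1 : Module.End k V))
      = (t g' • (1 : Module.End k V) - ρ g') * (t g • (1 : Module.End k V) - ρ g)
        - (t (g * g') • (1 : Module.End k V) - ρ g * ρ g') := by
    simp only [sub_mul, mul_sub, smul_mul_assoc, mul_smul_comm, one_mul, mul_one, sub_smul,
      smul_sub, smul_smul]
    abel
  rw [← sub_eq_zero, h3, h1, sub_self]


/-! ### the matrix level -/

section Mat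

variable {r : G →* Matrix (Fin 2) (Fin 2) k}

/-- Cayley–Hamilton for `2 × 2` matrices -/
theorem cayley_two (M : Matrix (Fin 2) (Fin 2) k) :
    M * M - M.trace • M + M.det • (1 : Matrix (Fin 2) (Fin 2) k) = 0 := by
  have h := Matrix.aeval_self_charpoly M
  rw [Matrix.charpoly_fin_two] at h
  simp only [map_add, map_sub, map_pow, aeval_X, map_mul, aeval_C] at h
  rw [← h, pow_two, Algebra.algebraMap_eq_smul_one, Algebra.algebraMap_eq_smul_one,
    smul_mul_assoc, one_mul]

/-- a non scalar matrix satisfying a quadratic relation has the expected trace and determinant -/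
theorem trace_det_of_not_scalar {M : Matrix (Fin 2) (Fin 2) k} {a b : k}
    (h : M * M - a • M + b • (1 : Matrix (Fin 2) (Fin 2) k) = 0)
    (hM : ∀ c : k, M ≠ c • (1 : Matrix (Fin 2) (Fin 2) k)) : M.trace = a ∧ M.det = b := by
  have h1 := cayley_two M
  have h2 : (a - M.trace) • M = (b - M.det) • (1 : Matrix (Fin 2) (Fin 2) k) := by
    rw [sub_smul, sub_smul, sub_eq_sub_iff_add_eq_add]
    have h3 : M * M - a • M + b • (1 : Matrix (Fin 2) (Fin 2) k)
        = M * M - M.trace • M + M.det • (1 : Matrix (Fin 2) (Fin 2) k) := by rw [h, h1]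
    have h4 := sub_eq_zero.mpr h3
    rw [← sub_eq_zero]
    rw [← neg_eq_zero, ← h4]
    abel
  have ha : a = M.trace := by
    by_contra hne
    have hne' : a - M.trace ≠ 0 := sub_ne_zero.mpr hne
    apply hM ((a - M.trace)⁻¹ * (b - M.det))
    rw [mul_smul, ← h2, smul_smul, inv_mul_cancel₀ hne', one_smul]
  refine ⟨ha.symm, ?_⟩
  rw [ha, sub_self, zero_smul] at h2
  have h5 := congrFun (congrFun h2 0) 0
  simp only [Matrix.zero_apply, Matrix.smul_apply, Matrix.one_apply_eq, smul_eq_mul,
    mul_one] at h5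
  exact (sub_eq_zero.mp h5.symm).symm

/-- **matrix level**: a two dimensional representation with the quadratic relations and a non
scalar element has the expected traces and determinants. -/
theorem trace_det_of_quadRel (h : ∀ g, r g * r g - t g • r g
      + ((d g : kˣ) : k) • (1 : Matrix (Fin 2) (Fin 2) k) = 0)
    {g₀ : G} (h₀ : ∀ c : k, r g₀ ≠ c • (1 : Matrix (Fin 2) (Fin 2) k)) (g : G) :
    (r g).trace = t g ∧ (r g).det = ((d g : kˣ) : k) := by
  by_cases hg : ∀ c : k, r g ≠ c • (1 : Matrix (Fin 2) (Fin 2) k)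
  · exact trace_det_of_not_scalar (h g) hg
  · rw [not_forall] at hg
    obtain ⟨c, hc⟩ := hg
    rw [not_not] at hc
    have hc0 : c ≠ 0 := by
      rintro rfl
      rw [zero_smul] at hc
      have h1 : r g * r g⁻¹ = 1 := by rw [← map_mul, mul_inv_cancel, map_one]
      rw [hc, zero_mul] at h1
      exact zero_ne_one h1
    -- `g g₀` is not scalar
    have h1 : ∀ c' : k, r (g * g₀) ≠ c' • (1 : Matrix (Fin 2) (Fin 2) k) := by
      intro c' hc'
      apply h₀ (c⁻¹ * c')
      rw [map_mul, hc, smul_mul_assoc, one_mul] at hc'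
      rw [mul_smul, ← hc', smul_smul, inv_mul_cancel₀ hc0, one_smul]
    have h2 := (trace_det_of_not_scalar (h (g * g₀)) h1).2
    have h3 := (trace_det_of_not_scalar (h g₀) h₀).2
    rw [map_mul, Matrix.det_mul, h3, map_mul, Units.val_mul] at h2
    have h4 : (r g).det = ((d g : kˣ) : k) :=
      mul_right_cancel₀ (Units.ne_zero (d g₀)) h2
    refine ⟨?_, h4⟩
    have h5 := h g
    rw [hc] at h5 h4 ⊢
    have h6 := congrFun (congrFun h5 0) 0
    simp only [Matrix.smul_mul, Matrix.mul_smul, Matrix.add_apply, Matrix.sub_apply,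
      Matrix.smul_apply, Matrix.one_apply_eq, Matrix.mul_one, smul_eq_mul, mul_one,
      Matrix.zero_apply] at h6
    simp only [Matrix.det_smul, Fintype.card_fin, Matrix.det_one, mul_one] at h4
    simp only [Matrix.trace_smul, Matrix.trace_one, Fintype.card_fin, Nat.cast_ofNat,
      smul_eq_mul]
    rw [← h4] at h6
    have h7 : c * (c * 2 - t g) = 0 := by linear_combination h6
    rcases mul_eq_zero.mp h7 with h8 | h8
    · exact absurd h8 hc0
    · exact sub_eq_zero.mp h8

end Mat

/-! ### invariant subspaces -/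

/-- invariant subspaces -/
def IsInv (ρ : G →* Module.End k V) (W : Submodule k V) : Prop := ∀ g, ∀ w ∈ W, ρ g w ∈ W

/-- the span of the orbit of a vector -/
def orbitSpan (ρ : G →* Module.End k V) (v : V) : Submodule k V :=
  Submodule.span k (Set.range fun g => ρ g v)

theorem mem_orbitSpan_self (v : V) : v ∈ orbitSpan ρ v :=
  Submodule.subset_span ⟨1, by
    show ρ 1 v = v
    rw [map_one]
    rfl⟩

theorem isInv_orbitSpan (v : V) : IsInv ρ (orbitSpan ρ v) := by
  intro g w hw
  induction hw using Submodule.span_induction with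
  | mem x hx =>
    obtain ⟨g', rfl⟩ := hx
    refine Submodule.subset_span ⟨g * g', ?_⟩
    show ρ (g * g') v = ρ g (ρ g' v)
    rw [map_mul]
    rfl
  | zero => rw [map_zero]; exact Submodule.zero_mem _
  | add x y _ _ hx hy => rw [map_add]; exact Submodule.add_mem _ hx hy
  | smul a x _ hx => rw [map_smul]; exact Submodule.smul_mem _ a hx

theorem orbitSpan_le {W : Submodule k V} (hW : IsInv ρ W) {v : V} (hv : v ∈ W) :
    orbitSpan ρ v ≤ W := by
  refine Submodule.span_le.mpr ?_
  rintro _ ⟨g, rfl⟩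
  exact hW g v hv

/-- minimal invariant subspaces -/
def IsMinInv (ρ : G →* Module.End k V) (W : Submodule k V) : Prop :=
  W ≠ ⊥ ∧ IsInv ρ W ∧ ∀ W' : Submodule k V, W' ≤ W → IsInv ρ W' → W' = ⊥ ∨ W' = W

theorem IsMinInv.orbitSpan_eq {W : Submodule k V} (hW : IsMinInv ρ W) {v : V} (hv : v ∈ W)
    (hv0 : v ≠ 0) : orbitSpan ρ v = W := by
  rcases hW.2.2 _ (orbitSpan_le hW.2.1 hv) (isInv_orbitSpan v) with h | h
  · exfalso
    have := mem_orbitSpan_self (ρ := ρ) v
    rw [h, Submodule.mem_bot] at this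
    exact hv0 this
  · exact h

variable (ρ) in
theorem exists_isMinInv [FiniteDimensional k V] [Nontrivial V] :
    ∃ W : Submodule k V, IsMinInv ρ W := by
  classical
  have hex : ∃ n : ℕ, ∃ W : Submodule k V, W ≠ ⊥ ∧ IsInv ρ W ∧ Module.finrank k W = n :=
    ⟨_, ⊤, top_ne_bot, fun _ _ _ => Submodule.mem_top, rfl⟩
  obtain ⟨W, hW0, hWi, hWn⟩ := Nat.find_spec hex
  refine ⟨W, hW0, hWi, fun W' hle hi => ?_⟩
  by_cases h0 : W' = ⊥
  · exact Or.inl h0
  right
  have h1 : Nat.find hex ≤ Module.finrank k W' := Nat.find_min' hex ⟨W', h0, hi, rfl⟩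
  rw [← hWn] at h1
  exact Submodule.eq_of_le_of_finrank_le hle h1


/-! ### the key claim and the dimension of a minimal invariant subspace -/

/-- key claim: `(g₀ - ν') w ∈ k e` for `w` in the span of the orbit of an eigenvector `e` of `g₀`
with eigenvalue `ν`, `ν + ν' = t g₀` -/
theorem QuadRel.key (h : QuadRel ρ d t) (g₀ : G) {ν ν' : k} (hν : ν + ν' = t g₀) {e : V}
    (he : ρ g₀ e = ν • e) (w : V) (hw : w ∈ orbitSpan ρ e) :
    ρ g₀ w - ν' • w ∈ Submodule.span k {e} := by
  induction hw using Submodule.span_induction with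
  | mem x hx =>
    obtain ⟨g, rfl⟩ := hx
    have h1 := congrArg (fun f : Module.End k V => f e) (h.anticomm g₀ g)
    simp only [LinearMap.add_apply, Module.End.mul_apply, LinearMap.smul_apply,
      Module.End.one_apply] at h1
    rw [he, map_smul] at h1
    have h2 : ρ g₀ (ρ g e) - ν' • ρ g e = (t g * ν + (t (g₀ * g) - t g₀ * t g)) • e := by
      rw [add_smul, mul_smul, ← hν] at *
      rw [sub_eq_iff_eq_add]
      rw [← sub_eq_zero] at h1 ⊢
      rw [← h1]
      simp only [add_smul]
      abel
    show ρ g₀ (ρ g e) - ν' • ρ g e ∈ _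
    rw [h2]
    exact Submodule.smul_mem _ _ (Submodule.mem_span_singleton_self e)
  | zero =>
    rw [map_zero, smul_zero, sub_zero]
    exact Submodule.zero_mem _
  | add x y _ _ hx hy =>
    have : ρ g₀ (x + y) - ν' • (x + y) = (ρ g₀ x - ν' • x) + (ρ g₀ y - ν' • y) := by
      rw [map_add, smul_add]
      abel
    rw [this]
    exact Submodule.add_mem _ hx hy
  | smul a x _ hx =>
    have : ρ g₀ (a • x) - ν' • (a • x) = a • (ρ g₀ x - ν' • x) := by
      rw [map_smul, smul_sub, smul_comm]
    rw [this]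
    exact Submodule.smul_mem _ a hx


section Dim

variable [IsAlgClosed k]

/-- a minimal invariant subspace on which some `g₀` is not a scalar has dimension two -/
theorem finrank_eq_two (h : QuadRel ρ d t) {W : Submodule k V} (hW : IsMinInv ρ W) (g₀ : G)
    (h₀ : ∀ c : k, ∃ w ∈ W, ρ g₀ w ≠ c • w) : Module.finrank k W = 2 := by
  classical
  -- the two roots
  obtain ⟨lam, hlam⟩ : ∃ lam : k, lam * lam - t g₀ * lam + ((d g₀ : kˣ) : k) = 0 := by
    have hdeg : (X ^ 2 - C (t g₀) * X + C ((d g₀ : kˣ) : k) : k[X]).degree ≠ 0 := by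
      have : (X ^ 2 - C (t g₀) * X + C ((d g₀ : kˣ) : k) : k[X]).degree = 2 := by
        compute_degree!
      rw [this]
      norm_num
    obtain ⟨lam, hl⟩ := IsAlgClosed.exists_root _ hdeg
    refine ⟨lam, ?_⟩
    simpa [pow_two] using hl
  set mu : k := t g₀ - lam with hmu
  have hsum : lam + mu = t g₀ := by rw [hmu]; ring
  have hsum' : mu + lam = t g₀ := by rw [hmu]; ring
  have hprod : lam * mu = ((d g₀ : kˣ) : k) := by rw [hmu]; linear_combination -hlam
  -- `(g₀ - lam)(g₀ - mu) = 0`
  have hq : ∀ w : V, ρ g₀ (ρ g₀ w) = t g₀ • ρ g₀ w - ((d g₀ : kˣ) : k) • w := by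
    intro w
    have h1 := congrArg (fun f : Module.End k V => f w) (h g₀)
    simp only [LinearMap.add_apply, LinearMap.sub_apply, Module.End.mul_apply,
      LinearMap.smul_apply, Module.End.one_apply, LinearMap.zero_apply] at h1
    rw [← sub_eq_zero, ← h1]
    abel
  have hq1 : ∀ w : V, ρ g₀ (ρ g₀ w - lam • w) = mu • (ρ g₀ w - lam • w) := by
    intro w
    rw [map_sub, map_smul, hq, ← hsum, ← hprod]
    module
  have hq2 : ∀ w : V, ρ g₀ (ρ g₀ w - mu • w) = lam • (ρ g₀ w - mu • w) := by
    intro w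
    rw [map_sub, map_smul, hq, ← hsum, ← hprod]
    module
  obtain ⟨u, huW, hu⟩ := h₀ lam
  obtain ⟨u', hu'W, hu'⟩ := h₀ mu
  set v' : V := ρ g₀ u - lam • u with hv'
  set v : V := ρ g₀ u' - mu • u' with hv
  have hv'0 : v' ≠ 0 := sub_ne_zero.mpr hu
  have hv0 : v ≠ 0 := sub_ne_zero.mpr hu'
  have hv'W : v' ∈ W := W.sub_mem (hW.2.1 g₀ u huW) (W.smul_mem _ huW)
  have hvW : v ∈ W := W.sub_mem (hW.2.1 g₀ u' hu'W) (W.smul_mem _ hu'W)
  have hev' : ρ g₀ v' = mu • v' := hq1 u
  have hev : ρ g₀ v = lam • v := hq2 u'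
  -- (K2)
  have hK2 : ∀ w ∈ W, ρ g₀ w - mu • w ∈ Submodule.span k {v} := by
    intro w hw
    apply h.key g₀ hsum hev
    rw [hW.orbitSpan_eq hvW hv0]
    exact hw
  -- the `mu`-eigenspace in `W` is the line of `v'`
  have hE : ∀ w' ∈ W, ρ g₀ w' = mu • w' → w' ∈ Submodule.span k {v'} := by
    intro w' hw'W hw'
    by_cases hw'0 : w' = 0
    · rw [hw'0]
      exact Submodule.zero_mem _
    have h1 : v' ∈ Submodule.span k {w'} := by
      apply h.key g₀ hsum' hw'
      rw [hW.orbitSpan_eq hw'W hw'0]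
      exact huW
    obtain ⟨c, hc⟩ := Submodule.mem_span_singleton.mp h1
    have hc0 : c ≠ 0 := by
      rintro rfl
      rw [zero_smul] at hc
      exact hv'0 hc.symm
    rw [Submodule.mem_span_singleton]
    exact ⟨c⁻¹, by rw [← hc, smul_smul, inv_mul_cancel₀ hc0, one_smul]⟩
  -- `W` is spanned by `u'` and `v'`
  have hspan : W = Submodule.span k (Set.range ![u', v']) := by
    apply le_antisymm
    · intro w hw
      obtain ⟨a, ha⟩ := Submodule.mem_span_singleton.mp (hK2 w hw)
      have h1 : ρ g₀ (w - a • u') = mu • (w - a • u') := by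
        rw [map_sub, map_smul, smul_sub]
        have h2 : ρ g₀ w = mu • w + a • v := by rw [ha]; abel
        rw [h2, hv]
        module
      have h3 := hE _ (W.sub_mem hw (W.smul_mem _ hu'W)) h1
      obtain ⟨b, hb⟩ := Submodule.mem_span_singleton.mp h3
      have h4 : w = a • u' + b • v' := by rw [hb]; abel
      rw [h4]
      refine Submodule.add_mem _ (Submodule.smul_mem _ _ (Submodule.subset_span ⟨0, rfl⟩))
        (Submodule.smul_mem _ _ (Submodule.subset_span ⟨1, rfl⟩))
    · refine Submodule.span_le.mpr ?_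
      rintro _ ⟨i, rfl⟩
      fin_cases i
      · exact hu'W
      · exact hv'W
  have hli : LinearIndependent k ![u', v'] := by
    rw [LinearIndependent.pair_iff]
    intro a b hab
    have h1 : ρ g₀ (a • u' + b • v') - mu • (a • u' + b • v') = a • v := by
      rw [map_add, map_smul, map_smul, hev', hv]
      module
    rw [hab, map_zero, smul_zero, sub_zero] at h1
    have ha : a = 0 := by
      rcases smul_eq_zero.mp h1.symm with h2 | h2
      · exact h2
      · exact absurd h2 hv0
    refine ⟨ha, ?_⟩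
    rw [ha, zero_smul, zero_add] at hab
    rcases smul_eq_zero.mp hab with h2 | h2
    · exact h2
    · exact absurd h2 hv'0
  rw [hspan, finrank_span_eq_card hli]
  rfl

end Dim

/-! ### the two cases -/

/-- the scalar case: the sum of two characters -/
theorem exists_of_scalar (h : QuadRel ρ d t) {W : Submodule k V} (hW : IsMinInv ρ W)
    (hs : ∀ g, ∃ c : k, ∀ w ∈ W, ρ g w = c • w) :
    ∃ r : G →* Matrix (Fin 2) (Fin 2) k,
      (∀ g, (r g).charpoly = X ^ 2 - C (t g) * X + C ((d g : kˣ) : k)) ∧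
      ∀ g, ρ g = 1 → d g = 1 → r g = 1 := by
  classical
  choose ψ hψ using hs
  obtain ⟨w₀, hw₀W, hw₀⟩ := Submodule.exists_mem_ne_zero_of_ne_bot hW.1
  have hinj : ∀ a b : k, a • w₀ = b • w₀ → a = b := fun a b hab =>
    smul_left_injective k hw₀ hab
  have hψ1 : ψ 1 = 1 := by
    apply hinj
    rw [← hψ 1 w₀ hw₀W, map_one, one_smul]
    rfl
  have hψmul : ∀ g g', ψ (g * g') = ψ g * ψ g' := by
    intro g g'
    apply hinj
    rw [← hψ (g * g') w₀ hw₀W, map_mul, Module.End.mul_apply, hψ g' w₀ hw₀W, map_smul,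
      hψ g w₀ hw₀W, smul_smul, mul_comm]
  have hψ0 : ∀ g, ψ g ≠ 0 := by
    intro g hg
    have := hψmul g g⁻¹
    rw [mul_inv_cancel, hψ1, hg, zero_mul] at this
    exact one_ne_zero this
  have hrel : ∀ g, ψ g * ψ g - t g * ψ g + ((d g : kˣ) : k) = 0 := by
    intro g
    have h1 := congrArg (fun f : Module.End k V => f w₀) (h g)
    simp only [LinearMap.add_apply, LinearMap.sub_apply, Module.End.mul_apply,
      LinearMap.smul_apply, Module.End.one_apply, LinearMap.zero_apply] at h1
    rw [hψ g w₀ hw₀W, map_smul, hψ g w₀ hw₀W] at h1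
    have h2 : (ψ g * ψ g - t g * ψ g + ((d g : kˣ) : k)) • w₀ = 0 := by
      rw [← h1]
      module
    rcases smul_eq_zero.mp h2 with h3 | h3
    · exact h3
    · exact absurd h3 hw₀
  let r : G →* Matrix (Fin 2) (Fin 2) k :=
    { toFun := fun g => Matrix.diagonal ![ψ g, ((d g : kˣ) : k) * (ψ g)⁻¹]
      map_one' := by
        rw [hψ1, map_one, Units.val_one, inv_one, mul_one, ← Matrix.diagonal_one]
        congr 1
        ext i
        fin_cases i <;> rfl
      map_mul' := fun g g' => by
        rw [Matrix.diagonal_mul_diagonal]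
        congr 1
        ext i
        fin_cases i
        · exact hψmul g g'
        · show ((d (g * g') : kˣ) : k) * (ψ (g * g'))⁻¹
            = ((d g : kˣ) : k) * (ψ g)⁻¹ * (((d g' : kˣ) : k) * (ψ g')⁻¹)
          rw [map_mul, Units.val_mul, hψmul, mul_inv]
          ring }
  refine ⟨r, fun g => ?_, fun g hg hd => ?_⟩
  · rw [Matrix.charpoly_fin_two]
    have htr : (r g).trace = t g := by
      show (Matrix.diagonal ![ψ g, ((d g : kˣ) : k) * (ψ g)⁻¹]).trace = t g
      rw [Matrix.trace_diagonal, Fin.sum_univ_two]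
      show ψ g + ((d g : kˣ) : k) * (ψ g)⁻¹ = t g
      have := hrel g
      field_simp [hψ0 g]
      linear_combination this
    have hdet : (r g).det = ((d g : kˣ) : k) := by
      show (Matrix.diagonal ![ψ g, ((d g : kˣ) : k) * (ψ g)⁻¹]).det = _
      rw [Matrix.det_diagonal, Fin.prod_univ_two]
      show ψ g * (((d g : kˣ) : k) * (ψ g)⁻¹) = _
      field_simp [hψ0 g]
    rw [htr, hdet]
  · have h1 : ψ g = 1 := by
      apply hinj
      rw [← hψ g w₀ hw₀W, hg, one_smul]
      rfl
    show Matrix.diagonal ![ψ g, ((d g : kˣ) : k) * (ψ g)⁻¹] = 1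
    rw [h1, hd, Units.val_one, inv_one, mul_one, ← Matrix.diagonal_one]
    congr 1
    ext i
    fin_cases i <;> rfl

/-- the restriction of the representation to an invariant subspace -/
def restr (ρ : G →* Module.End k V) {W : Submodule k V} (hW : IsInv ρ W) :
    G →* Module.End k W where
  toFun g := (ρ g).restrict (hW g)
  map_one' := by
    ext w
    simp [LinearMap.restrict_apply]
  map_mul' g g' := by
    ext w
    simp [LinearMap.restrict_apply]

theorem coe_restr_apply {W : Submodule k V} (hW : IsInv ρ W) (g : G) (w : W) :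
    ((restr ρ hW g w : W) : V) = ρ g (w : V) := rfl

/-- the two dimensional case -/
theorem exists_of_finrank_two (h : QuadRel ρ d t) {W : Submodule k V} (hW : IsInv ρ W)
    (h2 : Module.finrank k W = 2) (g₀ : G) (h₀ : ∀ c : k, ∃ w ∈ W, ρ g₀ w ≠ c • w) :
    ∃ r : G →* Matrix (Fin 2) (Fin 2) k,
      (∀ g, (r g).charpoly = X ^ 2 - C (t g) * X + C ((d g : kˣ) : k)) ∧
      ∀ g, ρ g = 1 → d g = 1 → r g = 1 := by
  classical
  haveI : Module.Finite k W := Module.finite_of_finrank_pos (by rw [h2]; norm_num)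
  let b : Module.Basis (Fin 2) k W := Module.finBasisOfFinrankEq k W h2
  let r : G →* Matrix (Fin 2) (Fin 2) k :=
    ((LinearMap.toMatrixAlgEquiv b : Module.End k W ≃ₐ[k] Matrix (Fin 2) (Fin 2) k) :
      Module.End k W →* Matrix (Fin 2) (Fin 2) k).comp (restr ρ hW)
  have hr : ∀ g, r g = LinearMap.toMatrixAlgEquiv b (restr ρ hW g) := fun g => rfl
  have hq : ∀ g, r g * r g - t g • r g + ((d g : kˣ) : k) • (1 : Matrix (Fin 2) (Fin 2) k)
      = 0 := by
    intro g
    have h1 : restr ρ hW g * restr ρ hW g - t g • restr ρ hW g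
        + ((d g : kˣ) : k) • (1 : Module.End k W) = 0 := by
      ext w
      have h3 := congrArg (fun f : Module.End k V => f (w : V)) (h g)
      simp only [LinearMap.add_apply, LinearMap.sub_apply, Module.End.mul_apply,
        LinearMap.smul_apply, Module.End.one_apply, LinearMap.zero_apply] at h3
      simp only [LinearMap.add_apply, LinearMap.sub_apply, Module.End.mul_apply,
        LinearMap.smul_apply, Module.End.one_apply, LinearMap.zero_apply,
        Submodule.coe_add, Submodule.coe_sub, Submodule.coe_smul, coe_restr_apply,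
        Submodule.coe_zero]
      exact h3
    have h4 := congrArg (LinearMap.toMatrixAlgEquiv b) h1
    simpa only [map_add, map_sub, map_mul, map_smul, map_one, map_zero, hr] using h4
  have hns : ∀ c : k, r g₀ ≠ c • (1 : Matrix (Fin 2) (Fin 2) k) := by
    intro c hc
    obtain ⟨w, hwW, hw⟩ := h₀ c
    apply hw
    have h1 : restr ρ hW g₀ = c • (1 : Module.End k W) := by
      apply (LinearMap.toMatrixAlgEquiv b).injective
      rw [map_smul, map_one]
      exact hc
    have h3 := congrArg (fun f : Module.End k W => ((f ⟨w, hwW⟩ : W) : V)) h1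
    simpa [coe_restr_apply] using h3
  refine ⟨r, fun g => ?_, fun g hg _ => ?_⟩
  · obtain ⟨h1, h3⟩ := trace_det_of_quadRel (r := r) hq hns g
    rw [Matrix.charpoly_fin_two, h1, h3]
  · rw [hr]
    have : restr ρ hW g = 1 := by
      ext w
      rw [coe_restr_apply, hg]
      rfl
    rw [this, map_one]

/-- **Main theorem.** Quadratic relations on a nonzero finite dimensional module give a two
dimensional representation with the expected characteristic polynomials. -/
theorem exists_two_dim [IsAlgClosed k] [FiniteDimensional k V] [Nontrivial V]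
    (h : QuadRel ρ d t) :
    ∃ r : G →* Matrix (Fin 2) (Fin 2) k,
      (∀ g, (r g).charpoly = X ^ 2 - C (t g) * X + C ((d g : kˣ) : k)) ∧
      ∀ g, ρ g = 1 → d g = 1 → r g = 1 := by
  obtain ⟨W, hW⟩ := exists_isMinInv ρ
  by_cases hs : ∀ g, ∃ c : k, ∀ w ∈ W, ρ g w = c • w
  · exact exists_of_scalar h hW hs
  · rw [not_forall] at hs
    obtain ⟨g₀, hg₀⟩ := hs
    have h₀ : ∀ c : k, ∃ w ∈ W, ρ g₀ w ≠ c • w := by
      intro c
      by_contra hc
      apply hg₀
      refine ⟨c, fun w hw => ?_⟩
      by_contra hne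
      exact hc ⟨w, hw, hne⟩
    exact exists_of_finrank_two h hW.2.1 (finrank_eq_two h hW g₀ h₀) g₀ h₀

end Fermat.Agent.Lib.GalRep
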